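import Mathlib.NumberTheory.ModularForms.QExpansion
import Mathlib.NumberTheory.ModularForms.CongruenceSubgroups
import Mathlib.Analysis.Complex.HasPrimitives
import Mathlib.Analysis.Complex.RemovableSingularity
import Mathlib.Analysis.Complex.UpperHalfPlane.Topology
import Mathlib.NumberTheory.Modular
import Fermat.Prelude.Def_ModularCurve_PeriodHomPair
import Fermat.Prelude.Thm_Subgroup_IsArithmetic_exists_nat_mem_strictPeriods_conj

/-!
# Equivariant primitives of weight two cusp forms and their periods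

Existence and uniqueness of `ModularCurve.HasEquivariantPrimitive`, linearity of
`ModularCurve.periodMap`, and vanishing of periods on parabolic elements.
-/

set_option autoImplicit false

noncomputable section

open UpperHalfPlane CongruenceSubgroup Filter Topology Function
open scoped MatrixGroups Manifold ModularForm Real

namespace FLTAgent.Periods

variable {f g : ℍ → ℂ} {F G : ℍ → ℂ}

/-- `F` is a holomorphic primitive of `f` on the upper half plane. -/
def IsPrimitive (F f : ℍ → ℂ) : Prop :=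
  ∀ τ : ℍ, HasDerivAt (F ∘ ofComplex) (f τ) τ

theorem IsPrimitive.mdiff (hF : IsPrimitive F f) : MDiff F := fun τ =>
  UpperHalfPlane.mdifferentiableAt_iff.mpr (hF τ).differentiableAt

theorem IsPrimitive.add (hF : IsPrimitive F f) (hG : IsPrimitive G g) :
    IsPrimitive (F + G) (f + g) := fun τ => (hF τ).add (hG τ)

theorem IsPrimitive.sub (hF : IsPrimitive F f) (hG : IsPrimitive G g) :
    IsPrimitive (F - G) (f - g) := fun τ => (hF τ).sub (hG τ)

theorem IsPrimitive.smul (c : ℂ) (hF : IsPrimitive F f) : IsPrimitive (c • F) (c • f) :=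
  fun τ => (hF τ).const_smul c

/-- A function on the upper half plane with vanishing derivative is constant. -/
theorem IsPrimitive.eq_of_zero (hF : IsPrimitive F 0) (τ τ' : ℍ) : F τ = F τ' := by
  have h : (F ∘ ofComplex) (τ : ℂ) = (F ∘ ofComplex) (τ' : ℂ) :=
    isOpen_upperHalfPlaneSet.is_const_of_deriv_eq_zero
      (convex_halfSpace_im_gt 0).isPreconnected
      (fun z hz => ((hF ⟨z, hz⟩).differentiableAt).differentiableWithinAt)
      (fun z hz => (hF ⟨z, hz⟩).deriv) τ.2 τ'.2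
  simpa using h

/-- Two primitives of the same function differ by a constant. -/
theorem IsPrimitive.exists_eq_add (hF : IsPrimitive F f) (hG : IsPrimitive G f) :
    ∃ c : ℂ, ∀ τ, F τ = G τ + c := by
  refine ⟨F UpperHalfPlane.I - G UpperHalfPlane.I, fun τ => ?_⟩
  have h := (sub_self f ▸ hF.sub hG : IsPrimitive (F - G) 0).eq_of_zero τ UpperHalfPlane.I
  simp only [Pi.sub_apply] at h
  linear_combination h

/-- Chain rule: composing a primitive with `δ ∈ SL(2,ℤ)` gives a primitive of the weight two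
slash. -/
theorem IsPrimitive.comp_smul (hF : IsPrimitive F f) (δ : SL(2, ℤ)) :
    IsPrimitive (fun w => F (δ • w)) (f ∣[(2 : ℤ)] δ) := by
  intro τ
  have hd1 : (δ : GL (Fin 2) ℝ).val.det = 1 :=
    ((Matrix.SpecialLinearGroup.map (Int.castRingHom ℝ)) δ).det_coe
  have hdet : 0 < (δ : GL (Fin 2) ℝ).val.det := hd1 ▸ one_pos
  have h1 := (hasStrictDerivAt_smul hdet τ).hasDerivAt
  have h2 : HasDerivAt (F ∘ ofComplex) (f (δ • τ))
      ((fun z ↦ ↑((δ : GL (Fin 2) ℝ) • ofComplex z) : ℂ → ℂ) τ) := by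
    simpa [ModularGroup.sl_moeb] using hF (δ • τ)
  have h3 := h2.comp (τ : ℂ) h1
  have e : (f ∣[(2 : ℤ)] δ) τ
      = f (δ • τ) * ((δ : GL (Fin 2) ℝ).val.det / denom (δ : GL (Fin 2) ℝ) τ ^ 2) := by
    rw [ModularForm.SL_slash_apply]
    rw [hd1]
    simp [zpow_neg, div_eq_mul_inv]
  rw [e]
  refine h3.congr_of_eventuallyEq (Eventually.of_forall fun z => ?_)
  simp [Function.comp_apply, ModularGroup.sl_moeb]

theorem IsPrimitive.comp_vadd (hF : IsPrimitive F f) (h : ℝ)
    (hper : ∀ τ : ℍ, f (h +ᵥ τ) = f τ) : IsPrimitive (fun w => F (h +ᵥ w)) f := by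
  intro τ
  have h1 : HasDerivAt (fun z : ℂ => z + (h : ℂ)) 1 (τ : ℂ) := (hasDerivAt_id _).add_const _
  have h2 : HasDerivAt (F ∘ ofComplex) (f τ) ((τ : ℂ) + (h : ℂ)) := by
    have := hF (h +ᵥ τ)
    rwa [hper, UpperHalfPlane.coe_vadd, add_comm] at this
  have h3 := h2.comp (τ : ℂ) h1
  rw [mul_one] at h3
  refine h3.congr_of_eventuallyEq ?_
  filter_upwards [isOpen_upperHalfPlaneSet.mem_nhds τ.im_pos] with z hz
  have hz' : 0 < (z + (h : ℂ)).im := by simpa using! hz
  simp only [Function.comp_apply]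
  congr 1
  ext
  simp [ofComplex_apply_of_im_pos hz, ofComplex_apply_of_im_pos hz', add_comm]

/-- A primitive with a limit at `i∞` of a periodic function is periodic. -/
theorem IsPrimitive.periodic (hF : IsPrimitive F f) {L : ℂ}
    (hL : Tendsto F atImInfty (𝓝 L)) {h : ℝ} (hper : ∀ τ : ℍ, f (h +ᵥ τ) = f τ) (τ : ℍ) :
    F (h +ᵥ τ) = F τ := by
  obtain ⟨c, hc⟩ := (hF.comp_vadd h hper).exists_eq_add hF
  have hlim : Tendsto (fun w : ℍ => h +ᵥ w) atImInfty atImInfty := by
    rw [atImInfty, tendsto_comap_iff]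
    refine tendsto_comap.congr fun w => ?_
    simp
  have h1 : Tendsto (fun w => F (h +ᵥ w)) atImInfty (𝓝 L) := hL.comp hlim
  have h2 : Tendsto (fun w => F (h +ᵥ w)) atImInfty (𝓝 (L + c)) :=
    (hL.add_const c).congr fun w => (hc w).symm
  have := tendsto_nhds_unique h1 h2
  have hc0 : c = 0 := by simpa using this
  simpa [hc0] using hc τ

/-- A periodic holomorphic function vanishing at `i∞` has a primitive vanishing at `i∞`. -/
theorem exists_isPrimitive_tendsto_zero {f : ℍ → ℂ} {h : ℝ} (hh : 0 < h)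
    (hper : Periodic (f ∘ ofComplex) h) (hhol : MDiff f) (hzero : IsZeroAtImInfty f) :
    ∃ F : ℍ → ℂ, IsPrimitive F f ∧ Tendsto F atImInfty (𝓝 0) := by
  set g := cuspFunction h f with hg
  have hbdd : IsBoundedAtImInfty f := hzero.boundedAtFilter
  have hd : DifferentiableOn ℂ (dslope g 0) (Metric.ball 0 1) :=
    (Complex.differentiableOn_dslope (Metric.ball_mem_nhds 0 one_pos)).mpr
      (differentiableOn_cuspFunction_ball hh hper hhol hbdd)
  obtain ⟨G, hG⟩ := hd.isExactOn_ball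
  have hg0 : g 0 = 0 := hzero.cuspFunction_apply_zero hh
  set c : ℂ := (h : ℂ) / (2 * π * Complex.I) with hc
  refine ⟨fun τ => c * (G (Periodic.qParam h τ) - G 0), fun τ => ?_, ?_⟩
  · set q := Periodic.qParam h (τ : ℂ) with hq
    have hqb : q ∈ Metric.ball (0 : ℂ) 1 :=
      mem_ball_zero_iff.mpr (Periodic.norm_qParam_lt_one hh τ.im_pos)
    have h1 : HasDerivAt (Periodic.qParam h) (q * (2 * π * Complex.I / h)) (τ : ℂ) := by
      have := (((hasDerivAt_id (τ : ℂ)).const_mul (2 * π * Complex.I)).div_const (h : ℂ)).cexp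
      simp only [id, mul_one] at this
      exact this
    have h2 := ((hG q hqb).comp (τ : ℂ) h1).sub_const (G 0) |>.const_mul c
    have hq0 : q ≠ 0 := Periodic.qParam_ne_zero _
    have hslope : q * dslope g 0 q = f τ := by
      have := eq_cuspFunction τ hh.ne' hper
      rw [← hq, ← hg] at this
      rw [dslope_of_ne _ hq0, slope_def_field, sub_zero, hg0, sub_zero, mul_div_assoc', ← this]
      field_simp
    have hval : c * (dslope g 0 q * (q * (2 * π * Complex.I / h))) = f τ := by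
      rw [← hslope, hc]
      have : (h : ℂ) ≠ 0 := by exact_mod_cast hh.ne'
      field_simp
    rw [hval] at h2
    refine h2.congr_of_eventuallyEq ?_
    filter_upwards [isOpen_upperHalfPlaneSet.mem_nhds τ.im_pos] with z hz
    simp [Function.comp_apply, ofComplex_apply_of_im_pos hz]
  · have h0 : ContinuousAt G 0 := (hG 0 (Metric.mem_ball_self one_pos)).continuousAt
    have := ((h0.tendsto.comp (qParam_tendsto_atImInfty hh)).sub_const (G 0)).const_mul c
    simpa using this

variable {N : ℕ}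

theorem slash_eq_self (f : CuspForm (Gamma0 N) 2) (γ : Gamma0 N) :
    (⇑f) ∣[(2 : ℤ)] (γ : SL(2, ℤ)) = ⇑f :=
  SlashInvariantFormClass.slash_action_eq f _ (Subgroup.mem_map_of_mem _ γ.2)

/-- A common width for all translates of level `Γ₀(N)` forms. -/
theorem exists_width (N : ℕ) [NeZero N] :
    ∃ M : ℕ, 0 < M ∧ ∀ (δ : SL(2, ℤ)) (f : CuspForm (Gamma0 N) 2),
      Periodic (((⇑f) ∣[(2 : ℤ)] δ) ∘ ofComplex) (M : ℝ) := by
  obtain ⟨M, hM, hper⟩ := Subgroup.IsArithmetic.exists_nat_mem_strictPeriods_conj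
    (↑(Gamma0 N) : Subgroup (GL (Fin 2) ℝ))
  refine ⟨M, hM, fun δ f => ?_⟩
  have h1 := hper δ⁻¹
  rw [map_inv] at h1
  have h2 := SlashInvariantFormClass.periodic_comp_ofComplex
    (CuspForm.translate f (δ : GL (Fin 2) ℝ)) h1
  rwa [CuspForm.coe_translate] at h2

theorem isZeroAtImInfty_slash [NeZero N] (f : CuspForm (Gamma0 N) 2) (δ : SL(2, ℤ)) :
    IsZeroAtImInfty ((⇑f) ∣[(2 : ℤ)] δ) := by
  have hc : IsCusp ((δ : GL (Fin 2) ℝ) • OnePoint.infty) (↑(Gamma0 N) : Subgroup (GL (Fin 2) ℝ)) :=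
    (Subgroup.IsArithmetic.isCusp_iff_isCusp_SL2Z _).mpr (isCusp_SL2Z_iff'.mpr ⟨δ, rfl⟩)
  exact CuspFormClass.zero_at_cusps f hc _ rfl

/-- Every weight two cusp form on `Γ₀(N)` has an equivariant primitive. -/
theorem exists_hasEquivariantPrimitive [NeZero N] (f : CuspForm (Gamma0 N) 2) :
    ∃ F : ℍ → ℂ, ModularCurve.HasEquivariantPrimitive N f F := by
  obtain ⟨M, hM, hper⟩ := exists_width N
  have hM' : (0 : ℝ) < M := Nat.cast_pos.mpr hM
  have key : ∀ δ : SL(2, ℤ), ∃ F : ℍ → ℂ,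
      IsPrimitive F ((⇑f) ∣[(2 : ℤ)] δ) ∧ Tendsto F atImInfty (𝓝 0) := fun δ =>
    exists_isPrimitive_tendsto_zero hM' (hper δ f)
      (MDifferentiable.slash (CuspFormClass.holo f) 2 _) (isZeroAtImInfty_slash f δ)
  obtain ⟨F, hF, hF0⟩ := key 1
  rw [SlashAction.slash_one] at hF
  refine ⟨F, hF, hF0, fun γ => ?_, fun δ => ?_⟩
  · have h1 := hF.comp_smul (γ : SL(2, ℤ))
    rw [slash_eq_self] at h1
    obtain ⟨c, hc⟩ := h1.exists_eq_add hF
    exact ⟨c, fun z => by rw [hc z]; ring⟩
  · obtain ⟨G, hG, hG0⟩ := key δ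
    obtain ⟨c, hc⟩ := (hF.comp_smul δ).exists_eq_add hG
    refine ⟨0 + c, (hG0.add_const c).congr fun w => (hc w).symm⟩

theorem hasEquivariantPrimitive_unique {f : CuspForm (Gamma0 N) 2} {F G : ℍ → ℂ}
    (hF : ModularCurve.HasEquivariantPrimitive N f F)
    (hG : ModularCurve.HasEquivariantPrimitive N f G) : F = G := by
  obtain ⟨c, hc⟩ := IsPrimitive.exists_eq_add hF.1 hG.1
  have h2 : Tendsto F atImInfty (𝓝 (0 + c)) := (hG.2.1.add_const c).congr fun w => (hc w).symm
  have := tendsto_nhds_unique hF.2.1 h2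
  funext τ
  rw [hc τ]
  linear_combination -this

/-- The period map is computed by any equivariant primitive. -/
theorem periodMap_apply [NeZero N] {f : CuspForm (Gamma0 N) 2} {F : ℍ → ℂ}
    (hF : ModularCurve.HasEquivariantPrimitive N f F) (γ : Gamma0 N) (z : ℍ) :
    ModularCurve.periodMap N f (Additive.ofMul γ) = F ((γ : SL(2, ℤ)) • z) - F z := by
  obtain ⟨F₀, h₀, he⟩ := ModularCurve.periodMap_def N f hF
  obtain rfl := hasEquivariantPrimitive_unique h₀ hF
  rw [he, ModularCurve.Period.IsEquivariantPrimitive.periodHom_apply,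
    hF.2.2.1.sub_eq_period γ z]

theorem hasEquivariantPrimitive_add {f g : CuspForm (Gamma0 N) 2} {F G : ℍ → ℂ}
    (hF : ModularCurve.HasEquivariantPrimitive N f F)
    (hG : ModularCurve.HasEquivariantPrimitive N g G) :
    ModularCurve.HasEquivariantPrimitive N (f + g) (F + G) := by
  refine ⟨IsPrimitive.add hF.1 hG.1, ?_, fun γ => ?_, fun δ => ?_⟩
  · have := hF.2.1.add hG.2.1
    rwa [add_zero] at this
  · obtain ⟨c, hc⟩ := hF.2.2.1 γ
    obtain ⟨d, hd⟩ := hG.2.2.1 γ
    exact ⟨c + d, fun z => by rw [← hc z, ← hd z]; simp only [Pi.add_apply]; ring⟩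
  · obtain ⟨c, hc⟩ := hF.2.2.2 δ
    obtain ⟨d, hd⟩ := hG.2.2.2 δ
    exact ⟨c + d, hc.add hd⟩

theorem hasEquivariantPrimitive_smul (a : ℂ) {f : CuspForm (Gamma0 N) 2} {F : ℍ → ℂ}
    (hF : ModularCurve.HasEquivariantPrimitive N f F) :
    ModularCurve.HasEquivariantPrimitive N (a • f) (a • F) := by
  refine ⟨IsPrimitive.smul a hF.1, ?_, fun γ => ?_, fun δ => ?_⟩
  · have := hF.2.1.const_smul a
    rwa [smul_zero] at this
  · obtain ⟨c, hc⟩ := hF.2.2.1 γ
    exact ⟨a * c, fun z => by rw [← hc z]; simp only [Pi.smul_apply, smul_eq_mul]; ring⟩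
  · obtain ⟨c, hc⟩ := hF.2.2.2 δ
    exact ⟨a * c, hc.const_mul a⟩

/-- The period map as a linear map. -/
def periodMapLin (N : ℕ) [NeZero N] :
    CuspForm (Gamma0 N) 2 →ₗ[ℂ] (Additive (Gamma0 N) →+ ℂ) where
  toFun := ModularCurve.periodMap N
  map_add' f g := by
    obtain ⟨F, hF⟩ := exists_hasEquivariantPrimitive f
    obtain ⟨G, hG⟩ := exists_hasEquivariantPrimitive g
    refine AddMonoidHom.ext fun γ => ?_
    induction γ using Additive.rec with
    | ofMul γ =>
      rw [AddMonoidHom.add_apply, periodMap_apply (hasEquivariantPrimitive_add hF hG) γ .I,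
        periodMap_apply hF γ .I, periodMap_apply hG γ .I]
      simp only [Pi.add_apply]; ring
  map_smul' a f := by
    obtain ⟨F, hF⟩ := exists_hasEquivariantPrimitive f
    refine AddMonoidHom.ext fun γ => ?_
    induction γ using Additive.rec with
    | ofMul γ =>
      rw [RingHom.id_apply, AddMonoidHom.smul_apply,
        periodMap_apply (hasEquivariantPrimitive_smul a hF) γ .I, periodMap_apply hF γ .I]
      simp only [Pi.smul_apply, smul_eq_mul]; ring

theorem periodMapLin_apply [NeZero N] (f : CuspForm (Gamma0 N) 2) :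
    periodMapLin N f = ModularCurve.periodMap N f := rfl

theorem existsPeriodMapLinear (N : ℕ) [NeZero N] : ModularCurve.ExistsPeriodMapLinear N :=
  ⟨periodMapLin N, fun _ => rfl⟩

open ModularCurve.Period in
theorem periodHomPair_apply [NeZero N] (f g : CuspForm (Gamma0 N) 2) :
    ModularCurve.periodHomPair N (f, g)
      = (ModularCurve.periodMap N f + charInvolution N ℂ ℂ (ModularCurve.periodMap N f))
        + (ModularCurve.periodMap N g - charInvolution N ℂ ℂ (ModularCurve.periodMap N g)) := by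
  obtain ⟨pml, hpml, he⟩ := ModularCurve.periodHomPair_def N (existsPeriodMapLinear N)
  rw [he]
  simp [hpml]

/-- An element of trace `±2` is conjugate to an element with vanishing lower left entry. -/
theorem exists_conj_lowerLeft_eq_zero {γ : SL(2, ℤ)}
    (h : (γ : Matrix (Fin 2) (Fin 2) ℤ).trace ^ 2 = 4) :
    ∃ δ : SL(2, ℤ), (δ⁻¹ * γ * δ) 1 0 = 0 := by
  rcases eq_or_ne (γ 1 0) 0 with hc | hc
  · exact ⟨1, by simpa using hc⟩
  have hdet := γ.det_coe
  rw [Matrix.det_fin_two] at hdet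
  rw [Matrix.trace_fin_two] at h
  set a := γ 0 0 with ha
  set b := γ 0 1 with hb
  set c := γ 1 0 with hc'
  set d := γ 1 1 with hd
  obtain ⟨e, he⟩ : ∃ e : ℤ, a + d = 2 * e ∧ e ^ 2 = 1 := by
    have h4 : (a + d - 2) * (a + d + 2) = 0 := by linear_combination h
    rcases mul_eq_zero.mp h4 with h' | h'
    · exact ⟨1, by linear_combination h', by norm_num⟩
    · exact ⟨-1, by linear_combination h', by norm_num⟩
  have hgne : (Int.gcd (a - e) c : ℤ) ≠ 0 := by
    simp [Int.gcd_eq_zero_iff, hc]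
  obtain ⟨x, y, hxy, hx, hy⟩ : ∃ x y : ℤ, IsCoprime x y ∧
      a - e = x * (Int.gcd (a - e) c : ℤ) ∧ c = y * (Int.gcd (a - e) c : ℤ) := by
    obtain ⟨g, x, y, hg, hcop, hx, hy⟩ :=
      Int.exists_gcd_one' (m := a - e) (n := c) (Int.gcd_pos_iff.mpr (Or.inr hc))
    refine ⟨x, y, ?_, ?_, ?_⟩
    · exact Int.isCoprime_iff_gcd_eq_one.mpr hcop
    · have : Int.gcd (a - e) c = g := by
        rw [hx, hy, Int.gcd_mul_right, hcop, one_mul, Int.natAbs_natCast]
      rw [this]; exact hx
    · have : Int.gcd (a - e) c = g := by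
        rw [hx, hy, Int.gcd_mul_right, hcop, one_mul, Int.natAbs_natCast]
      rw [this]; exact hy
  obtain ⟨u, v, huv⟩ := hxy
  set G : ℤ := (Int.gcd (a - e) c : ℤ) with hG
  have hdet' : (!![x, -v; y, u]).det = 1 := by
    rw [Matrix.det_fin_two_of]; linear_combination huv
  obtain ⟨δ, hδ⟩ : ∃ δ : SL(2, ℤ), (δ : Matrix (Fin 2) (Fin 2) ℤ) = !![x, -v; y, u] :=
    ⟨⟨_, hdet'⟩, rfl⟩
  refine ⟨δ, ?_⟩
  -- lower left entry is `-y (a x + b y) + x (c x + d y)`, which vanishes
  have key : -y * (a * x + b * y) + x * (c * x + d * y) = 0 := by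
    refine mul_left_cancel₀ (pow_ne_zero 2 hgne) ?_
    rw [mul_zero]
    obtain ⟨he1, he2⟩ := he
    calc G ^ 2 * (-y * (a * x + b * y) + x * (c * x + d * y))
        = -(y * G) * (a * (x * G) + b * (y * G))
          + (x * G) * (c * (x * G) + d * (y * G)) := by ring
      _ = 0 := by
        rw [← hx, ← hy]
        linear_combination c * hdet - c * e * he1 - c * he2
  rw [Matrix.SpecialLinearGroup.coe_mul, Matrix.SpecialLinearGroup.coe_mul,
    Matrix.SpecialLinearGroup.coe_inv, hδ, Matrix.adjugate_fin_two_of]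
  simp [Matrix.mul_apply, Matrix.vecMul, dotProduct, Fin.sum_univ_two, ← ha, ← hb, ← hc', ← hd]
  linear_combination key

/-- Periods vanish on parabolic elements. -/
theorem periodMap_mem_parabolicHoms [NeZero N] (f : CuspForm (Gamma0 N) 2) :
    ModularCurve.periodMap N f ∈ ModularCurve.Period.parabolicHoms ℂ (Gamma0 N) ℂ := by
  rw [ModularCurve.Period.mem_parabolicHoms_iff]
  intro γ hγ
  obtain ⟨F, hF⟩ := exists_hasEquivariantPrimitive f
  obtain ⟨δ, hδ⟩ := exists_conj_lowerLeft_eq_zero hγ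
  obtain ⟨n, hn⟩ := ModularGroup.exists_eq_T_zpow_of_c_eq_zero hδ
  obtain ⟨L, hL⟩ := hF.2.2.2 δ
  have hlim : Tendsto (fun w : ℍ => (n : ℝ) +ᵥ w) atImInfty atImInfty := by
    rw [atImInfty, tendsto_comap_iff]
    refine tendsto_comap.congr fun w => ?_
    simp
  have h1 : ∀ w : ℍ, (γ : SL(2, ℤ)) • (δ • w) = δ • ((n : ℝ) +ᵥ w) := fun w => by
    rw [← modular_T_zpow_smul, ← hn w]
    simp [mul_smul]
  have h2 : Tendsto (fun w : ℍ => F ((γ : SL(2, ℤ)) • (δ • w)) - F (δ • w)) atImInfty (𝓝 (L - L)) :=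
    ((hL.comp hlim).congr fun w => by rw [Function.comp_apply, h1 w]).sub hL
  have h3 : Tendsto (fun w : ℍ => F ((γ : SL(2, ℤ)) • (δ • w)) - F (δ • w)) atImInfty
      (𝓝 (ModularCurve.periodMap N f (Additive.ofMul γ))) :=
    tendsto_const_nhds.congr fun w => periodMap_apply hF γ _
  rw [sub_self] at h2
  exact tendsto_nhds_unique h3 h2

theorem range_periodHomPair_le (N : ℕ) [NeZero N] :
    LinearMap.range (ModularCurve.periodHomPair N)
      ≤ ModularCurve.Period.parabolicHoms ℂ (Gamma0 N) ℂ := by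
  rintro _ ⟨⟨f, g⟩, rfl⟩
  rw [periodHomPair_apply]
  have hf := periodMap_mem_parabolicHoms f
  have hg := periodMap_mem_parabolicHoms g
  exact add_mem (add_mem hf (ModularCurve.Period.charInvolution_mem_parabolicHoms N ℂ ℂ hf))
    (sub_mem hg (ModularCurve.Period.charInvolution_mem_parabolicHoms N ℂ ℂ hg))

end FLTAgent.Periods
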