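import Mathlib.Analysis.Complex.AbsMax
import Mathlib.NumberTheory.Modular
import Mathlib.Analysis.Calculus.Deriv.Star
import Fermat.Agent.Periods.Primitive

/-!
# Injectivity of the period map of weight two cusp forms

The real part of the periods determines the cusp form; consequently
`ModularCurve.periodHomPair` is injective.
-/

set_option autoImplicit false

noncomputable section

open UpperHalfPlane CongruenceSubgroup Filter Topology Function
open scoped MatrixGroups Manifold ModularForm Real ComplexConjugate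

namespace FLTAgent.Periods

variable {N : ℕ} [NeZero N]

omit [NeZero N] in
theorem quot_out_smul (W : ℍ → ℂ) (hW : ∀ γ ∈ Gamma0 N, ∀ τ, ‖W (γ • τ)‖ = ‖W τ‖) (τ : ℍ) :
    ∃ (q : SL(2, ℤ) ⧸ Gamma0 N) (w : ℍ), 1 / 2 ≤ w.im ∧ ‖W τ‖ = ‖W (q.out⁻¹ • w)‖ := by
  obtain ⟨g, hg⟩ := ModularGroup.exists_one_half_le_im_smul τ
  refine ⟨QuotientGroup.mk g, g • τ, hg, ?_⟩
  obtain ⟨γ, hγ⟩ := QuotientGroup.mk_out_eq_mul (Gamma0 N) g
  rw [hγ, mul_inv_rev, mul_smul, inv_smul_smul, hW _ (inv_mem γ.2)]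

/-- A cusp form of weight two all of whose periods are purely imaginary vanishes. -/
theorem eq_zero_of_re_periodMap_eq_zero (f : CuspForm (Gamma0 N) 2)
    (hre : ∀ γ : Gamma0 N, (ModularCurve.periodMap N f (Additive.ofMul γ)).re = 0) : f = 0 := by
  obtain ⟨F, hF⟩ := exists_hasEquivariantPrimitive f
  obtain ⟨M, hM, hper⟩ := exists_width N
  have hM' : (0 : ℝ) < M := Nat.cast_pos.mpr hM
  set E : ℍ → ℂ := fun τ => Complex.exp (F τ) with hE
  have hEinv : ∀ γ ∈ Gamma0 N, ∀ τ, ‖E (γ • τ)‖ = ‖E τ‖ := fun γ hγ τ => by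
    have h1 := hre ⟨γ, hγ⟩
    rw [periodMap_apply hF ⟨γ, hγ⟩ τ, Complex.sub_re, sub_eq_zero] at h1
    simp only [hE, Complex.norm_exp, h1]
  -- properties of the translates
  have hperE : ∀ δ : SL(2, ℤ), Periodic ((fun w => E (δ • w)) ∘ ofComplex) (M : ℝ) := by
    intro δ z
    obtain ⟨L, hL⟩ := hF.2.2.2 δ
    have hp : IsPrimitive (fun w => F (δ • w)) ((⇑f) ∣[(2 : ℤ)] δ) := IsPrimitive.comp_smul hF.1 δ
    have hfp : ∀ τ : ℍ, ((⇑f) ∣[(2 : ℤ)] δ) ((M : ℝ) +ᵥ τ) = ((⇑f) ∣[(2 : ℤ)] δ) τ := fun τ => by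
      have h1 := hper δ f (τ : ℂ)
      simp only [Function.comp_apply] at h1
      rw [ofComplex_apply] at h1
      convert h1 using 2
      ext
      rw [coe_vadd, add_comm, ofComplex_apply_of_im_pos]
      simpa using τ.im_pos
    have hP := hp.periodic hL hfp
    by_cases hz : 0 < z.im
    · have hz' : 0 < (z + ((M : ℝ) : ℂ)).im := by simpa using hz
      simp only [Function.comp_apply, ofComplex_apply_of_im_pos hz,
        ofComplex_apply_of_im_pos hz', hE]
      rw [← hP ⟨z, hz⟩]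
      congr 3
      ext
      simp [add_comm]
    · have hz' : (z + ((M : ℝ) : ℂ)).im ≤ 0 := by simpa using hz
      simp only [Function.comp_apply]
      rw [ofComplex_apply_of_im_nonpos hz', ofComplex_apply_of_im_nonpos (not_lt.mp hz)]
  have hholE : ∀ δ : SL(2, ℤ), MDiff (fun w => E (δ • w)) := fun δ τ =>
    UpperHalfPlane.mdifferentiableAt_iff.mpr
      ((IsPrimitive.comp_smul hF.1 δ τ).differentiableAt.cexp)
  have hbddE : ∀ δ : SL(2, ℤ), IsBoundedAtImInfty (fun w => E (δ • w)) := fun δ => by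
    obtain ⟨L, hL⟩ := hF.2.2.2 δ
    exact ((Complex.continuous_exp.tendsto L).comp hL).isBigO_one ℝ
  set Q := SL(2, ℤ) ⧸ Gamma0 N with hQ
  set g : Q → ℂ → ℂ := fun q => cuspFunction (M : ℝ) (fun w => E (q.out⁻¹ • w)) with hg
  have hgd : ∀ q, DifferentiableOn ℂ (g q) (Metric.ball 0 1) := fun q =>
    differentiableOn_cuspFunction_ball hM' (hperE _) (hholE _) (hbddE _)
  have hge : ∀ (q : Q) (w : ℍ), g q (Periodic.qParam (M : ℝ) w) = E (q.out⁻¹ • w) := fun q w =>
    eq_cuspFunction (f := fun w => E (q.out⁻¹ • w)) w hM'.ne' (hperE _)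
  set r : ℝ := Real.exp (-π / M) with hr
  have hr1 : r < 1 := Real.exp_lt_one_iff.mpr
    (div_neg_of_neg_of_pos (neg_neg_of_pos Real.pi_pos) hM')
  have hsub : Metric.closedBall (0 : ℂ) r ⊆ Metric.ball 0 1 := Metric.closedBall_subset_ball hr1
  have hmax : ∀ q, ∃ z ∈ Metric.closedBall (0 : ℂ) r,
      IsMaxOn (fun z => ‖g q z‖) (Metric.closedBall 0 r) z := fun q =>
    (isCompact_closedBall 0 r).exists_isMaxOn ⟨0, by simp [hr, (Real.exp_pos _).le]⟩
      ((hgd q).continuousOn.mono hsub).norm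
  choose z hz hzmax using hmax
  have : Nonempty Q := ⟨QuotientGroup.mk 1⟩
  obtain ⟨q₀, hq₀⟩ := Finite.exists_max (fun q => ‖g q (z q)‖)
  have hbound : ∀ τ, ‖E τ‖ ≤ ‖g q₀ (z q₀)‖ := by
    intro τ
    obtain ⟨q, w, hw, he⟩ := quot_out_smul (N := N) E hEinv τ
    rw [he, ← hge q w]
    refine le_trans (hzmax q ?_) (hq₀ q)
    rw [mem_closedBall_zero_iff, Periodic.norm_qParam]
    refine Real.exp_le_exp.mpr (div_le_div_of_nonneg_right ?_ hM'.le)
    have : (w : ℂ).im = w.im := rfl
    nlinarith [Real.pi_pos]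
  have hglob : IsMaxOn (norm ∘ g q₀) (Metric.ball 0 1) (z q₀) := by
    intro u hu
    show ‖g q₀ u‖ ≤ ‖g q₀ (z q₀)‖
    rcases eq_or_ne u 0 with rfl | hu0
    · exact hzmax q₀ (by simp [hr, (Real.exp_pos _).le])
    · have him := Periodic.im_invQParam_pos_of_norm_lt_one hM' (mem_ball_zero_iff.mp hu) hu0
      have := hge q₀ ⟨_, him⟩
      rw [Periodic.qParam_right_inv hM'.ne' hu0] at this
      rw [this]
      exact hbound _
  have hconst := Complex.eqOn_of_isPreconnected_of_isMaxOn_norm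
    (convex_ball (0 : ℂ) 1).isPreconnected Metric.isOpen_ball (hgd q₀) (hsub (hz q₀)) hglob
  have hEconst : ∀ τ, E τ = g q₀ (z q₀) := fun τ => by
    have h1 := hge q₀ (q₀.out • τ)
    rw [inv_smul_smul] at h1
    rw [← h1]
    exact hconst (mem_ball_zero_iff.mpr (Periodic.norm_qParam_lt_one hM' (q₀.out • τ).im_pos))
  ext τ
  have h1 := (hF.1 τ).cexp
  have h2 : HasDerivAt (fun w => Complex.exp ((F ∘ ofComplex) w)) 0 (τ : ℂ) :=
    (hasDerivAt_const (τ : ℂ) (g q₀ (z q₀))).congr_of_eventuallyEq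
      (Eventually.of_forall fun w => hEconst (ofComplex w))
  have := h1.unique h2
  simpa [Complex.exp_ne_zero] using this

omit [NeZero N] in
theorem J_mul_mapGL (δ : SL(2, ℤ)) :
    (UpperHalfPlane.J : GL (Fin 2) ℝ) * (δ : GL (Fin 2) ℝ)
      = (ModularCurve.Period.jConjSL δ : GL (Fin 2) ℝ) * UpperHalfPlane.J := by
  ext i j
  fin_cases i <;> fin_cases j <;>
    simp [UpperHalfPlane.J, Matrix.mul_apply, Fin.sum_univ_two, ModularCurve.Period.jConjMat]

/-- The conjugate form `τ ↦ conj (f (-conj τ))`. -/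
def conjForm (f : CuspForm (Gamma0 N) 2) : CuspForm (Gamma0 N) 2 where
  toFun := (⇑f) ∣[(2 : ℤ)] (UpperHalfPlane.J : GL (Fin 2) ℝ)
  slash_action_eq' := by
    rintro _ ⟨γ, hγ, rfl⟩
    rw [← SlashAction.slash_mul]
    show (⇑f) ∣[(2 : ℤ)] (UpperHalfPlane.J * (γ : GL (Fin 2) ℝ)) = _
    rw [J_mul_mapGL, SlashAction.slash_mul, ← ModularForm.SL_slash,
      slash_eq_self f ⟨_, ModularCurve.Period.jConjSL_mem_Gamma0 hγ⟩]
  holo' := MDifferentiable.slash (CuspFormClass.holo f) 2 _
  zero_at_cusps' {c} hc := by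
    rw [OnePoint.isZeroAt_iff_forall_SL2Z
      ((Subgroup.IsArithmetic.isCusp_iff_isCusp_SL2Z _).mp hc)]
    intro δ _
    rw [ModularForm.SL_slash, ← SlashAction.slash_mul, J_mul_mapGL, SlashAction.slash_mul,
      ← ModularForm.SL_slash]
    exact (isZeroAtImInfty_slash f _).slash _ (by simp [UpperHalfPlane.J])

theorem conjForm_apply (f : CuspForm (Gamma0 N) 2) (τ : ℍ) :
    conjForm f τ = conj (f (UpperHalfPlane.J • τ)) := by
  show ((⇑f) ∣[(2 : ℤ)] (UpperHalfPlane.J : GL (Fin 2) ℝ)) τ = _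
  simp [ModularForm.slash_def, UpperHalfPlane.J, UpperHalfPlane.σ, denom, Matrix.det_fin_two,
    show ¬((1 : ℝ) < 0) from not_lt.mpr zero_le_one]

theorem conjForm_eq_zero {f : CuspForm (Gamma0 N) 2} (h : conjForm f = 0) : f = 0 := by
  ext τ
  have := DFunLike.congr_fun h (UpperHalfPlane.J • τ)
  rw [conjForm_apply, ← mul_smul, ← sq, UpperHalfPlane.J_sq, one_smul] at this
  simpa using this

omit [NeZero N] in
theorem J_smul_sl (δ : SL(2, ℤ)) (τ : ℍ) :
    UpperHalfPlane.J • (δ • τ) = ModularCurve.Period.jConjSL δ • (UpperHalfPlane.J • τ) := by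
  rw [ModularGroup.sl_moeb, ← mul_smul, J_mul_mapGL, mul_smul, ← ModularGroup.sl_moeb]

theorem hasEquivariantPrimitive_conjForm {f : CuspForm (Gamma0 N) 2} {F : ℍ → ℂ}
    (hF : ModularCurve.HasEquivariantPrimitive N f F) :
    ModularCurve.HasEquivariantPrimitive N (conjForm f)
      (fun τ => -conj (F (UpperHalfPlane.J • τ))) := by
  have hlim : Tendsto (fun τ : ℍ => UpperHalfPlane.J • τ) atImInfty atImInfty :=
    UpperHalfPlane.tendsto_smul_atImInfty (by simp [UpperHalfPlane.J])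
  refine ⟨fun τ => ?_, ?_, fun γ => ?_, fun δ => ?_⟩
  · have h1 := (hF.1 (UpperHalfPlane.J • τ))
    have hJ : ((UpperHalfPlane.J • τ : ℍ) : ℂ) = -conj (τ : ℂ) := by
      rw [UpperHalfPlane.coe_J_smul]
    rw [hJ] at h1
    have h1' : HasDerivAt (F ∘ ofComplex) (f (UpperHalfPlane.J • τ)) (-1 * conj (τ : ℂ)) := by
      rwa [neg_one_mul]
    have h2 := h1'.comp (conj (τ : ℂ)) ((hasDerivAt_id _).const_mul (-1 : ℂ))
    have h3 := h2.conj_conj.neg
    simp only [mul_one, Complex.conj_conj, mul_neg, map_neg, neg_neg] at h3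
    rw [conjForm_apply]
    refine h3.congr_of_eventuallyEq ?_
    filter_upwards [isOpen_upperHalfPlaneSet.mem_nhds τ.im_pos] with w hw
    have hw' : 0 < (-1 * conj w).im := by simpa using hw
    simp only [Function.comp_apply, ofComplex_apply_of_im_pos hw,
      ofComplex_apply_of_im_pos hw', Pi.neg_apply]
    congr 3
    ext
    rw [UpperHalfPlane.coe_J_smul]
    simp
  · have := ((Complex.continuous_conj.tendsto 0).comp (hF.2.1.comp hlim)).neg
    simpa using this
  · obtain ⟨c, hc⟩ := hF.2.2.1 (ModularCurve.Period.jConjGamma0 N γ)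
    refine ⟨-conj c, fun z => ?_⟩
    rw [← hc (UpperHalfPlane.J • z), ModularCurve.Period.jConjGamma0_coe]
    simp only [J_smul_sl, map_sub]
    ring
  · obtain ⟨L, hL⟩ := hF.2.2.2 (ModularCurve.Period.jConjSL δ)
    refine ⟨-conj L, (((Complex.continuous_conj.tendsto L).comp (hL.comp hlim)).neg).congr
      fun w => ?_⟩
    simp only [Function.comp_apply, J_smul_sl]

theorem periodMap_conjForm (f : CuspForm (Gamma0 N) 2) (γ : Gamma0 N) :
    ModularCurve.periodMap N (conjForm f) (Additive.ofMul γ)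
      = -conj (ModularCurve.periodMap N f
          (Additive.ofMul (ModularCurve.Period.jConjGamma0 N γ))) := by
  obtain ⟨F, hF⟩ := exists_hasEquivariantPrimitive f
  rw [periodMap_apply (hasEquivariantPrimitive_conjForm hF) γ UpperHalfPlane.I,
    periodMap_apply hF _ (UpperHalfPlane.J • UpperHalfPlane.I),
    ModularCurve.Period.jConjGamma0_coe, J_smul_sl, map_sub]
  ring

open ModularCurve.Period in
/-- The period map is injective. -/
theorem injective_periodHomPair (N : ℕ) [NeZero N] :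
    Function.Injective (ModularCurve.periodHomPair N) := by
  rw [injective_iff_map_eq_zero]
  rintro ⟨f, g⟩ h
  rw [periodHomPair_apply] at h
  set u := f + g with hu
  set v := f - g with hv
  have key : ∀ γ : Gamma0 N, periodMapLin N u (Additive.ofMul γ)
      = conj (periodMapLin N (conjForm v) (Additive.ofMul γ)) := by
    intro γ
    have h1 := DFunLike.congr_fun h (Additive.ofMul γ)
    simp only [periodMapLin_apply, periodMap_conjForm, map_neg, Complex.conj_conj]
    rw [← periodMapLin_apply, ← periodMapLin_apply, hu, hv, map_add, map_sub]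
    simp only [AddMonoidHom.add_apply, AddMonoidHom.sub_apply, charInvolution_apply,
      toMul_ofMul, AddMonoidHom.zero_apply, periodMapLin_apply] at h1 ⊢
    linear_combination h1
  have h1 : u - conjForm v = 0 := eq_zero_of_re_periodMap_eq_zero _ fun γ => by
    rw [← periodMapLin_apply, map_sub, AddMonoidHom.sub_apply, key, Complex.sub_re,
      Complex.conj_re, sub_self]
  have h2 : Complex.I • (u + conjForm v) = 0 := eq_zero_of_re_periodMap_eq_zero _ fun γ => by
    rw [← periodMapLin_apply, map_smul, map_add, AddMonoidHom.smul_apply, AddMonoidHom.add_apply,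
      key]
    simp
  have h3 : u = 0 := by
    have h2' := (smul_eq_zero.mp h2).resolve_left Complex.I_ne_zero
    have : (2 : ℂ) • u = 0 := by
      rw [two_smul]
      calc u + u = (u - conjForm v) + (u + conjForm v) := by abel
        _ = 0 := by rw [h1, h2', add_zero]
    exact (smul_eq_zero.mp this).resolve_left two_ne_zero
  have h4 : v = 0 := conjForm_eq_zero (by simpa [h3] using h1)
  rw [hu] at h3
  rw [hv, sub_eq_zero] at h4
  subst h4
  have : (2 : ℂ) • f = 0 := by rw [two_smul]; exact h3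
  have hf := (smul_eq_zero.mp this).resolve_left two_ne_zero
  simp [hf]

end FLTAgent.Periods
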