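import Fermat.Agent.MFDim.Cosets
import Mathlib.LinearAlgebra.FiniteDimensional.Lemmas
import Mathlib.LinearAlgebra.Matrix.FixedDetMatrices
import Mathlib.GroupTheory.GroupAction.Quotient
import Mathlib.GroupTheory.OrderOfElement
import Mathlib.NumberTheory.Modular
import Fermat.Prelude.Def_ModularCurve_PeriodMap

/-!
# An upper bound for the dimension of the space of parabolic homomorphisms

For a finite index subgroup `Γ ∋ -1` of `SL(2, ℤ)` and a field `K` with `6 ≠ 0`, the space of
parabolic homomorphisms `Γ → K` has dimension at most `2g`, where `g` is given by the genus formula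
in terms of the index, the fixed points of `S` and `ST` on the cosets and the orbits of `T`.
-/

set_option autoImplicit false

noncomputable section

open scoped MatrixGroups
open MulAction

namespace FLTAgent.Periods

/-- If `g ^ p` acts trivially, for a prime `p`, the orbits of `g` have `1` or `p` elements. -/
theorem prime_mul_card_orbits {G α : Type*} [Group G] [MulAction G α] [Finite α] (g : G) {p : ℕ}
    (hp : p.Prime) (hg : ∀ x : α, g ^ p • x = x) :
    p * Nat.card (orbitRel.Quotient (Subgroup.zpowers g) α)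
      = Nat.card α + (p - 1) * Nat.card (fixedBy α g) := by
  classical
  have := Fintype.ofFinite α
  set Q := orbitRel.Quotient (Subgroup.zpowers g) α with hQ
  have : Finite Q := Quotient.finite _
  have := Fintype.ofFinite Q
  have key : ∀ q : Q, ∑ x ∈ Finset.univ.filter (fun x : α => (Quotient.mk'' x : Q) = q),
      (1 + (p - 1) * (if g • x = x then 1 else 0)) = p := by
    intro q
    induction q using Quotient.inductionOn' with
    | h x =>
      have hfib : ∀ y : α, (Quotient.mk'' y : Q) = Quotient.mk'' x ↔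
          y ∈ orbit (Subgroup.zpowers g) x := fun y => Quotient.eq''.trans Iff.rfl
      have hiff : ∀ y ∈ orbit (Subgroup.zpowers g) x, (g • y = y ↔ g • x = x) := by
        rintro _ ⟨⟨_, k, rfl⟩, rfl⟩
        show g • (g ^ k • x) = g ^ k • x ↔ g • x = x
        rw [← mul_smul, show g * g ^ k = g ^ k * g from ((Commute.refl g).zpow_right k).eq,
          mul_smul, smul_left_cancel_iff]
      have hperiod : Function.minimalPeriod (g • ·) x ∣ p :=
        Function.IsPeriodicPt.minimalPeriod_dvd (by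
          show (g • ·)^[p] x = x
          rw [smul_iterate]; exact hg x)
      have hcard : (Finset.univ.filter (fun y : α => (Quotient.mk'' y : Q) = Quotient.mk'' x)).card
          = Function.minimalPeriod (g • ·) x := by
        rw [MulAction.minimalPeriod_eq_card]
        rw [← Fintype.card_coe]
        refine Fintype.card_congr (Equiv.subtypeEquivRight fun y => ?_)
        simp [hfib y]
      rw [Finset.sum_congr rfl (g := fun _ => 1 + (p - 1) * (if g • x = x then 1 else 0))]
      swap
      · intro y hy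
        rw [Finset.mem_filter] at hy
        simp only [hiff y ((hfib y).mp hy.2)]
      rw [Finset.sum_const, hcard, smul_eq_mul]
      by_cases hx : g • x = x
      · have h1 : Function.minimalPeriod (g • ·) x = 1 :=
          Function.minimalPeriod_eq_one_iff_isFixedPt.mpr hx
        rw [h1, if_pos hx, one_mul, mul_one]
        have := hp.one_lt; omega
      · rcases (Nat.dvd_prime hp).mp hperiod with h1 | h1
        · exact absurd (Function.minimalPeriod_eq_one_iff_isFixedPt.mp h1) hx
        · rw [h1, if_neg hx]; simp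
  have hsum := Finset.sum_fiberwise (Finset.univ : Finset α) (fun x => (Quotient.mk'' x : Q))
    (fun x => 1 + (p - 1) * (if g • x = x then 1 else 0))
  rw [Finset.sum_congr rfl (fun q _ => key q), Finset.sum_add_distrib, ← Finset.mul_sum,
    Finset.sum_boole] at hsum
  simp only [Finset.sum_const, Finset.card_univ, smul_eq_mul, mul_one, Nat.cast_id] at hsum
  rw [Nat.card_eq_fintype_card, Nat.card_eq_fintype_card,
    Nat.card_eq_fintype_card (α := fixedBy α g), mul_comm p, hsum]
  congr 2
  rw [← Fintype.card_coe]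
  refine Fintype.card_congr (Equiv.subtypeEquivRight fun y => ?_)
  simp [fixedBy]

section

variable {K : Type*} [Field K] (Γ : Subgroup SL(2, ℤ))

local notation "X" => SL(2, ℤ) ⧸ Γ

open ModularGroup (S T)

theorem S_sq : S ^ 2 = (-1 : SL(2, ℤ)) := by
  apply Subtype.ext
  simp [pow_succ, ModularGroup.coe_S, Matrix.SpecialLinearGroup.coe_neg, Matrix.one_fin_two]

theorem S_inv_mul_ST : S⁻¹ * (S * T) = T := inv_mul_cancel_left _ _

/-- A predicate closed under the group operations and true at `S` and `S * T` is true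
everywhere. -/
theorem forall_of_S_of_ST (p : SL(2, ℤ) → Prop) (hS : p S) (hU : p (S * T)) (h1 : p 1)
    (hmul : ∀ a b, p a → p b → p (a * b)) (hinv : ∀ a, p a → p a⁻¹) (g : SL(2, ℤ)) : p g := by
  have hT : p T := S_inv_mul_ST ▸ hmul _ _ (hinv _ hS) hU
  have hg : g ∈ Subgroup.closure {S, T} := by
    rw [SpecialLinearGroup.SL2Z_generators]; exact Subgroup.mem_top g
  induction hg using Subgroup.closure_induction with
  | mem x hx => rcases hx with rfl | rfl <;> assumption
  | one => exact h1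
  | mul a b _ _ ha hb => exact hmul a b ha hb
  | inv a _ ha => exact hinv a ha

variable {Γ}

theorem neg_one_smul_coset (hneg : -1 ∈ Γ) (x : X) : (-1 : SL(2, ℤ)) • x = x := by
  induction x using QuotientGroup.induction_on with
  | H g =>
    show (((-1 : SL(2, ℤ)) * g : SL(2, ℤ)) : X) = (g : X)
    rw [QuotientGroup.eq]
    simpa using hneg

/-- The transfer cocycle of a homomorphism `φ : Γ → K`. -/
def cocycle (φ : Additive Γ →+ K) (g : SL(2, ℤ)) (x : X) : K :=
  φ (Additive.ofMul ⟨(g • x).out⁻¹ * g * x.out, by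
    rw [mul_assoc, ← QuotientGroup.eq, QuotientGroup.out_eq']
    show g • x = g • (x.out : X)
    rw [QuotientGroup.out_eq']⟩)

theorem cocycle_mul (φ : Additive Γ →+ K) (a b : SL(2, ℤ)) (x : X) :
    cocycle φ (a * b) x = cocycle φ a (b • x) + cocycle φ b x := by
  unfold cocycle
  rw [← map_add, ← ofMul_mul]
  congr 2
  apply Subtype.ext
  show ((a * b) • x).out⁻¹ * (a * b) * x.out
    = ((a • b • x).out⁻¹ * a * (b • x).out) * ((b • x).out⁻¹ * b * x.out)
  rw [mul_smul]
  simp [mul_assoc]

theorem cocycle_one (φ : Additive Γ →+ K) (x : X) : cocycle φ 1 x = 0 := by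
  have := cocycle_mul φ 1 1 x
  rw [one_mul, one_smul] at this
  simpa using this

theorem cocycle_inv (φ : Additive Γ →+ K) (a : SL(2, ℤ)) (x : X) :
    cocycle φ a⁻¹ x = - cocycle φ a (a⁻¹ • x) := by
  have := cocycle_mul φ a a⁻¹ x
  rw [mul_inv_cancel, cocycle_one] at this
  linear_combination -this

theorem cocycle_basePoint (φ : Additive Γ →+ K) {γ : SL(2, ℤ)} (hγ : γ ∈ Γ) :
    cocycle φ γ ((1 : SL(2, ℤ)) : X) = φ (Additive.ofMul ⟨γ, hγ⟩) := by
  have hfix : γ • ((1 : SL(2, ℤ)) : X) = ((1 : SL(2, ℤ)) : X) := by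
    show ((γ * 1 : SL(2, ℤ)) : X) = _
    rw [QuotientGroup.eq]
    simpa using hγ
  obtain ⟨u, hu⟩ := QuotientGroup.mk_out_eq_mul Γ (1 : SL(2, ℤ))
  unfold cocycle
  have : (⟨(γ • ((1 : SL(2, ℤ)) : X)).out⁻¹ * γ * ((1 : SL(2, ℤ)) : X).out, by
      rw [hfix, hu]; simpa using mul_mem (mul_mem (inv_mem u.2) hγ) u.2⟩ : Γ)
      = u⁻¹ * ⟨γ, hγ⟩ * u := by
    apply Subtype.ext
    show (γ • ((1 : SL(2, ℤ)) : X)).out⁻¹ * γ * ((1 : SL(2, ℤ)) : X).out
      = (u : SL(2, ℤ))⁻¹ * γ * u
    rw [hfix, hu, one_mul]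
  rw [this, ofMul_mul, ofMul_mul, ofMul_inv, map_add, map_add, map_neg]
  ring

variable {φ : Additive Γ →+ K} (hφ : φ ∈ ModularCurve.Period.parabolicHoms K Γ K)
include hφ

theorem cocycle_eq_zero_of_trace {g : SL(2, ℤ)} {x : X}
    (hg : (g : Matrix (Fin 2) (Fin 2) ℤ).trace ^ 2 = 4) (hx : g • x = x) :
    cocycle φ g x = 0 := by
  refine hφ _ ?_
  show (((g • x).out⁻¹ * g * x.out : SL(2, ℤ)) : Matrix (Fin 2) (Fin 2) ℤ).trace ^ 2 = 4
  rw [hx, Matrix.SpecialLinearGroup.coe_mul, Matrix.trace_mul_comm,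
    ← Matrix.SpecialLinearGroup.coe_mul, mul_inv_cancel_left]
  exact hg

variable (hneg : -1 ∈ Γ)
include hneg

theorem cocycle_neg_one (x : X) : cocycle φ (-1 : SL(2, ℤ)) x = 0 :=
  cocycle_eq_zero_of_trace hφ
    (by simp [Matrix.SpecialLinearGroup.coe_neg]) (neg_one_smul_coset hneg x)

theorem cocycle_S_relation (x : X) : cocycle φ S x + cocycle φ S (S • x) = 0 := by
  have h := cocycle_mul φ S S x
  rw [← sq, S_sq, cocycle_neg_one hφ hneg] at h
  linear_combination -h

theorem cocycle_ST_relation (x : X) :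
    cocycle φ (S * T) x + cocycle φ (S * T) ((S * T) • x)
      + cocycle φ (S * T) ((S * T) • (S * T) • x) = 0 := by
  have h := cocycle_mul φ (S * T * (S * T)) (S * T) x
  rw [show S * T * (S * T) * (S * T) = (S * T) ^ 3 by simp [pow_succ, mul_assoc],
    MFDim.ST_pow_three, cocycle_neg_one hφ hneg, cocycle_mul] at h
  linear_combination -h

theorem cocycle_T (x : X) :
    cocycle φ T x = cocycle φ S ((S * T) • x) + cocycle φ (S * T) x := by
  have h1 : cocycle φ T x = cocycle φ S⁻¹ ((S * T) • x) + cocycle φ (S * T) x := by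
    rw [← cocycle_mul, S_inv_mul_ST]
  have h2 := cocycle_S_relation hφ hneg (S⁻¹ • (S * T) • x)
  rw [smul_inv_smul] at h2
  rw [h1, cocycle_inv]
  linear_combination -h2

end

section Bound

variable {K : Type*} [Field K] {Γ : Subgroup SL(2, ℤ)} [Γ.FiniteIndex]

open ModularGroup (S T)

variable (K Γ) in
/-- The space of pairs of functions on the cosets. -/
abbrev CosetPairs := ((SL(2, ℤ) ⧸ Γ) → K) × ((SL(2, ℤ) ⧸ Γ) → K)

variable (K Γ) in
/-- The two relations coming from `S² = -1` and `(ST)³ = -1`. -/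
def ellipticMap : CosetPairs K Γ →ₗ[K] CosetPairs K Γ where
  toFun v := (fun x => v.1 x + v.1 (S • x),
    fun x => v.2 x + v.2 ((S * T) • x) + v.2 ((S * T) • (S * T) • x))
  map_add' u v := by ext x <;> simp <;> ring
  map_smul' c v := by ext x <;> simp [mul_add]

open Classical in
variable (K Γ) in
/-- The sum over the orbits of `T` of the cocycle of `T`. -/
def cuspMap : CosetPairs K Γ →ₗ[K]
    (orbitRel.Quotient (Subgroup.zpowers T) (SL(2, ℤ) ⧸ Γ) → K) :=
  letI := Fintype.ofFinite (SL(2, ℤ) ⧸ Γ)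
  { toFun := fun v q => ∑ x ∈ Finset.univ.filter
        (fun x : SL(2, ℤ) ⧸ Γ => Quotient.mk'' x = q), (v.1 ((S * T) • x) + v.2 x)
    map_add' := fun u v => by
      ext q; simp only [Prod.fst_add, Prod.snd_add, Pi.add_apply, ← Finset.sum_add_distrib]
      exact Finset.sum_congr rfl fun x _ => by ring
    map_smul' := fun c v => by
      ext q; simp only [Prod.smul_fst, Prod.smul_snd, Pi.smul_apply, smul_eq_mul, Finset.mul_sum,
        RingHom.id_apply]
      exact Finset.sum_congr rfl fun x _ => by ring }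

variable (K Γ) in
/-- The coboundary map. -/
def coboundary : ((SL(2, ℤ) ⧸ Γ) → K) →ₗ[K] CosetPairs K Γ where
  toFun b := (fun x => b (S • x) - b x, fun x => b ((S * T) • x) - b x)
  map_add' u v := by ext x <;> simp <;> ring
  map_smul' c v := by ext x <;> simp [mul_sub]

variable (K Γ) in
/-- The cocycle at `S` and at `ST` of a parabolic homomorphism. -/
def cocyclePair : ModularCurve.Period.parabolicHoms K Γ K →ₗ[K] CosetPairs K Γ where
  toFun φ := (cocycle φ.1 S, cocycle φ.1 (S * T))
  map_add' _ _ := rfl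
  map_smul' _ _ := rfl

variable (hneg : -1 ∈ Γ)
include hneg

omit [Γ.FiniteIndex] in
theorem S_smul_S_smul (x : SL(2, ℤ) ⧸ Γ) : S • S • x = x := by
  rw [← mul_smul, ← sq, S_sq, neg_one_smul_coset hneg]

omit [Γ.FiniteIndex] in
theorem ST_smul_ST_smul_ST_smul (x : SL(2, ℤ) ⧸ Γ) :
    (S * T) • (S * T) • (S * T) • x = x := by
  rw [← mul_smul, ← mul_smul, show S * T * (S * T) * (S * T) = (S * T) ^ 3 by
    simp [pow_succ, mul_assoc], MFDim.ST_pow_three, neg_one_smul_coset hneg]

omit [Γ.FiniteIndex] in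
theorem S_smul_ST_smul (x : SL(2, ℤ) ⧸ Γ) : S • (S * T) • x = T • x := by
  rw [mul_smul, S_smul_S_smul hneg]

omit [Γ.FiniteIndex] hneg in
theorem cocyclePair_injective : Function.Injective (cocyclePair K Γ) := by
  rw [injective_iff_map_eq_zero]
  intro φ h
  have hS : cocycle φ.1 S = 0 := congrArg Prod.fst h
  have hU : cocycle φ.1 (S * T) = 0 := congrArg Prod.snd h
  have hall : ∀ g, ∀ x, cocycle φ.1 g x = 0 :=
    forall_of_S_of_ST _ (fun x => congrFun hS x) (fun x => congrFun hU x)
      (cocycle_one φ.1) (fun a b ha hb x => by rw [cocycle_mul, ha, hb, add_zero])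
      (fun a ha x => by rw [cocycle_inv, ha, neg_zero])
  refine Subtype.ext (AddMonoidHom.ext fun γ => ?_)
  rw [← ofMul_toMul γ]
  simpa using (cocycle_basePoint φ.1 (Additive.toMul γ).2).symm.trans (hall _ _)

omit [Γ.FiniteIndex] hneg in
theorem disjoint_coboundary :
    Disjoint (LinearMap.range (cocyclePair K Γ)) (LinearMap.range (coboundary K Γ)) := by
  rw [Submodule.disjoint_def]
  rintro _ ⟨φ, rfl⟩ ⟨b, hb⟩
  have hall : ∀ g, ∀ x, cocycle φ.1 g x = b (g • x) - b x :=
    forall_of_S_of_ST _ (fun x => (congrFun (congrArg Prod.fst hb) x).symm)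
      (fun x => (congrFun (congrArg Prod.snd hb) x).symm)
      (fun x => by simp [cocycle_one])
      (fun a a' ha ha' x => by rw [cocycle_mul, ha, ha', mul_smul]; ring)
      (fun a ha x => by rw [cocycle_inv, ha, smul_inv_smul]; ring)
  have : φ = 0 := by
    refine Subtype.ext (AddMonoidHom.ext fun γ => ?_)
    rw [← ofMul_toMul γ]
    have h := (cocycle_basePoint φ.1 (Additive.toMul γ).2).symm.trans (hall _ _)
    have hfix : ((Additive.toMul γ : Γ) : SL(2, ℤ)) • ((1 : SL(2, ℤ)) : SL(2, ℤ) ⧸ Γ)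
        = ((1 : SL(2, ℤ)) : SL(2, ℤ) ⧸ Γ) := by
      show ((_ * 1 : SL(2, ℤ)) : SL(2, ℤ) ⧸ Γ) = _
      rw [QuotientGroup.eq]
      simp
    rw [hfix, sub_self] at h
    simpa using h
  rw [this, map_zero]

theorem range_cocyclePair_le :
    LinearMap.range (cocyclePair K Γ) ≤
      LinearMap.ker (ellipticMap K Γ) ⊓ LinearMap.ker (cuspMap K Γ) := by
  classical
  rintro _ ⟨φ, rfl⟩
  constructor
  · refine LinearMap.mem_ker.mpr (Prod.ext (funext fun x => ?_) (funext fun x => ?_))
    · exact cocycle_S_relation φ.2 hneg x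
    · exact cocycle_ST_relation φ.2 hneg x
  · refine LinearMap.mem_ker.mpr (funext fun q => ?_)
    let := Fintype.ofFinite (SL(2, ℤ) ⧸ Γ)
    induction q using Quotient.inductionOn' with
    | h x =>
      show ∑ y ∈ _, (cocycle φ.1 S ((S * T) • y) + cocycle φ.1 (S * T) y) = 0
      simp only [← cocycle_T φ.2 hneg]
      set m := Function.minimalPeriod (T • ·) x with hm
      have hiter : ∀ n : ℕ, cocycle φ.1 (T ^ n) x
          = ∑ i ∈ Finset.range n, cocycle φ.1 T (T ^ i • x) := fun n => by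
        induction n with
        | zero => simp [cocycle_one]
        | succ n ih => rw [pow_succ', cocycle_mul, ih, Finset.sum_range_succ]; ring
      have hmx : T ^ m • x = x := MulAction.pow_period_smul T x
      have hmzero : cocycle φ.1 (T ^ m) x = 0 := by
        refine cocycle_eq_zero_of_trace φ.2 ?_ hmx
        rw [← zpow_natCast, ModularGroup.coe_T_zpow, Matrix.trace_fin_two_of]
        norm_num
      rw [← hmzero, hiter]
      symm
      refine Finset.sum_nbij (fun i => T ^ i • x) ?_ ?_ ?_ (fun i _ => rfl)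
      · intro i _
        rw [Finset.mem_filter]
        refine ⟨Finset.mem_univ _, Quotient.sound' ?_⟩
        exact ⟨⟨T ^ i, Subgroup.npow_mem_zpowers T i⟩, rfl⟩
      · intro i hi j hj hij
        simp only [Finset.coe_range, Set.mem_Iio] at hi hj
        refine Function.iterate_injOn_Iio_minimalPeriod (f := (T • ·)) (x := x) hi hj ?_
        simpa [smul_iterate] using hij
      · intro y hy
        rw [Finset.mem_coe, Finset.mem_filter] at hy
        have hy' : y ∈ orbit (Subgroup.zpowers T) x := Quotient.eq''.mp hy.2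
        obtain ⟨⟨_, k, rfl⟩, rfl⟩ := hy'
        have hpos : 0 < m := NeZero.pos m
        refine ⟨(k % (m : ℤ)).toNat, ?_, ?_⟩
        · simp only [Finset.coe_range, Set.mem_Iio]
          have := Int.emod_lt_of_pos k (Int.natCast_pos.mpr hpos)
          omega
        · show T ^ (k % (m : ℤ)).toNat • x = T ^ k • x
          rw [← zpow_natCast, Int.toNat_of_nonneg (Int.emod_nonneg _ (by omega))]
          exact MulAction.zpow_smul_mod_minimalPeriod T x k

theorem range_coboundary_le :
    LinearMap.range (coboundary K Γ) ≤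
      LinearMap.ker (ellipticMap K Γ) ⊓ LinearMap.ker (cuspMap K Γ) := by
  classical
  rintro _ ⟨b, rfl⟩
  constructor
  · refine LinearMap.mem_ker.mpr (Prod.ext (funext fun x => ?_) (funext fun x => ?_))
    · show (b (S • x) - b x) + (b (S • S • x) - b (S • x)) = 0
      rw [S_smul_S_smul hneg]; ring
    · show (b ((S * T) • x) - b x) + (b ((S * T) • (S * T) • x) - b ((S * T) • x))
        + (b ((S * T) • (S * T) • (S * T) • x) - b ((S * T) • (S * T) • x)) = 0
      rw [ST_smul_ST_smul_ST_smul hneg]; ring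
  · refine LinearMap.mem_ker.mpr (funext fun q => ?_)
    let := Fintype.ofFinite (SL(2, ℤ) ⧸ Γ)
    show ∑ y ∈ Finset.univ.filter (fun y => Quotient.mk'' y = q),
      (b (S • (S * T) • y) - b ((S * T) • y) + (b ((S * T) • y) - b y)) = 0
    simp only [sub_add_sub_cancel, S_smul_ST_smul hneg, Finset.sum_sub_distrib, sub_eq_zero]
    refine Finset.sum_equiv (MulAction.toPerm T) (fun y => ?_) (fun y _ => rfl)
    simp only [Finset.mem_filter, Finset.mem_univ, true_and, MulAction.toPerm_apply]
    have : (Quotient.mk'' (T • y) : orbitRel.Quotient (Subgroup.zpowers T) (SL(2, ℤ) ⧸ Γ))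
        = Quotient.mk'' y := Quotient.sound' ⟨⟨T, Subgroup.mem_zpowers T⟩, rfl⟩
    rw [this]

omit hneg in
theorem finrank_range_coboundary :
    Nat.card (SL(2, ℤ) ⧸ Γ) ≤ Module.finrank K (LinearMap.range (coboundary K Γ)) + 1 := by
  have := Fintype.ofFinite (SL(2, ℤ) ⧸ Γ)
  have hker : LinearMap.ker (coboundary K Γ) ≤ Submodule.span K {fun _ => (1 : K)} := by
    intro b hb
    rw [LinearMap.mem_ker] at hb
    have h1 : ∀ g : SL(2, ℤ), ∀ x, b (g • x) = b x :=
      forall_of_S_of_ST _ (fun x => sub_eq_zero.mp (congrFun (congrArg Prod.fst hb) x))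
        (fun x => sub_eq_zero.mp (congrFun (congrArg Prod.snd hb) x))
        (fun x => by rw [one_smul]) (fun a a' ha ha' x => by rw [mul_smul, ha, ha'])
        (fun a ha x => by rw [← ha (a⁻¹ • x), smul_inv_smul])
    rw [Submodule.mem_span_singleton]
    refine ⟨b ((1 : SL(2, ℤ)) : SL(2, ℤ) ⧸ Γ), funext fun x => ?_⟩
    induction x using QuotientGroup.induction_on with
    | H g =>
      have := h1 g ((1 : SL(2, ℤ)) : SL(2, ℤ) ⧸ Γ)
      change b ((g * 1 : SL(2, ℤ)) : SL(2, ℤ) ⧸ Γ) = _ at this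
      rw [mul_one] at this
      simp [this]
  have h := (Submodule.finrank_mono hker).trans (finrank_span_le_card _)
  have hrn := LinearMap.finrank_range_add_finrank_ker (coboundary K Γ)
  rw [Module.finrank_fintype_fun_eq_card, ← Nat.card_eq_fintype_card] at hrn
  simp at h
  omega

omit hneg in
theorem finrank_ker_ellipticMap (h2 : (2 : K) ≠ 0) (h3 : (3 : K) ≠ 0) :
    Module.finrank K (LinearMap.ker (ellipticMap K Γ))
      + Nat.card (orbitRel.Quotient (Subgroup.zpowers S) (SL(2, ℤ) ⧸ Γ))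
      + Nat.card (orbitRel.Quotient (Subgroup.zpowers (S * T)) (SL(2, ℤ) ⧸ Γ))
      ≤ 2 * Nat.card (SL(2, ℤ) ⧸ Γ) := by
  set Q2 := orbitRel.Quotient (Subgroup.zpowers S) (SL(2, ℤ) ⧸ Γ) with hQ2
  set Q3 := orbitRel.Quotient (Subgroup.zpowers (S * T)) (SL(2, ℤ) ⧸ Γ) with hQ3
  have := Fintype.ofFinite (SL(2, ℤ) ⧸ Γ)
  have : Finite Q2 := Quotient.finite _
  have : Finite Q3 := Quotient.finite _
  have := Fintype.ofFinite Q2
  have := Fintype.ofFinite Q3
  set ι : (Q2 → K) × (Q3 → K) →ₗ[K] CosetPairs K Γ :=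
    LinearMap.prodMap (LinearMap.funLeft K K Quotient.mk'') (LinearMap.funLeft K K Quotient.mk'')
    with hι
  have hinj : Function.Injective ι :=
    Function.Injective.prodMap
      (LinearMap.funLeft_injective_of_surjective K K _ Quotient.mk''_surjective)
      (LinearMap.funLeft_injective_of_surjective K K _ Quotient.mk''_surjective)
  have hrange : LinearMap.range ι ≤ LinearMap.range (ellipticMap K Γ) := by
    rintro _ ⟨⟨u, v⟩, rfl⟩
    refine ⟨((fun x => 2⁻¹ * u (Quotient.mk'' x)), (fun x => 3⁻¹ * v (Quotient.mk'' x))),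
      Prod.ext (funext fun x => ?_) (funext fun x => ?_)⟩
    · have e1 : (Quotient.mk'' (S • x) : Q2) = Quotient.mk'' x :=
        Quotient.sound' ⟨⟨S, Subgroup.mem_zpowers S⟩, rfl⟩
      show 2⁻¹ * u (Quotient.mk'' x) + 2⁻¹ * u (Quotient.mk'' (S • x)) = u (Quotient.mk'' x)
      rw [e1]
      field_simp
      ring
    · have e1 : ∀ y, (Quotient.mk'' ((S * T) • y) : Q3) = Quotient.mk'' y := fun y =>
        Quotient.sound' ⟨⟨S * T, Subgroup.mem_zpowers _⟩, rfl⟩
      show 3⁻¹ * v (Quotient.mk'' x) + 3⁻¹ * v (Quotient.mk'' ((S * T) • x))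
        + 3⁻¹ * v (Quotient.mk'' ((S * T) • (S * T) • x)) = v (Quotient.mk'' x)
      simp only [e1]
      field_simp
      ring
  have h := Submodule.finrank_mono hrange
  rw [LinearMap.finrank_range_of_inj hinj, Module.finrank_prod, Module.finrank_fintype_fun_eq_card,
    Module.finrank_fintype_fun_eq_card] at h
  have hrn := LinearMap.finrank_range_add_finrank_ker (ellipticMap K Γ)
  rw [Module.finrank_prod, Module.finrank_fintype_fun_eq_card] at hrn
  simp only [Nat.card_eq_fintype_card]
  omega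

theorem finrank_ker_inf :
    Module.finrank K ↥(LinearMap.ker (ellipticMap K Γ) ⊓ LinearMap.ker (cuspMap K Γ))
      + Nat.card (orbitRel.Quotient (Subgroup.zpowers T) (SL(2, ℤ) ⧸ Γ))
      ≤ Module.finrank K (LinearMap.ker (ellipticMap K Γ)) + 1 := by
  classical
  set A := LinearMap.ker (ellipticMap K Γ) with hA
  set C := orbitRel.Quotient (Subgroup.zpowers T) (SL(2, ℤ) ⧸ Γ) with hC
  let := Fintype.ofFinite (SL(2, ℤ) ⧸ Γ)
  have : Finite C := Quotient.finite _
  have := Fintype.ofFinite C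
  set ψ := (cuspMap K Γ).domRestrict A with hψ
  set e : (SL(2, ℤ) ⧸ Γ) → (C → K) := fun x => Pi.single (Quotient.mk'' x : C) (1 : K) with he
  set R := LinearMap.range ψ ⊔ Submodule.span K {e ((1 : SL(2, ℤ)) : SL(2, ℤ) ⧸ Γ)} with hR
  have hsingle : ∀ (x : SL(2, ℤ) ⧸ Γ) (q : C),
      ∑ y ∈ Finset.univ.filter (fun y => Quotient.mk'' y = q),
        (Pi.single x (1 : K) : (SL(2, ℤ) ⧸ Γ) → K) y = e x q := by
    intro x q
    rw [Finset.sum_pi_single']
    simp [he, Pi.single_apply, eq_comm]
  have hU : ∀ x, e x - e ((S * T) • x) ∈ R := by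
    intro x
    refine Submodule.mem_sup_left ⟨⟨(0, Pi.single x 1 - Pi.single ((S * T) • x) 1), ?_⟩, ?_⟩
    · refine LinearMap.mem_ker.mpr (Prod.ext (funext fun y => ?_) (funext fun y => ?_))
      · show (0 : K) + 0 = 0
        simp
      · show (Pi.single x (1 : K) : _ → K) y -
          (Pi.single ((S * T) • x) (1 : K) : _ → K) y + _ + _ = 0
        have f1 : (S * T) • y = (S * T) • x ↔ y = x := smul_left_cancel_iff _
        have f2 : (S * T) • (S * T) • y = (S * T) • x ↔ (S * T) • y = x := smul_left_cancel_iff _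
        have f3 : (S * T) • (S * T) • y = x ↔ y = (S * T) • x := by
          conv_lhs => rw [← smul_left_cancel_iff (S * T), ST_smul_ST_smul_ST_smul hneg]
        simp only [Pi.sub_apply, Pi.single_apply, f1, f2, f3]
        ring
    · funext q
      show ∑ y ∈ _, ((0 : K) + ((Pi.single x (1 : K) : _ → K) y
        - (Pi.single ((S * T) • x) (1 : K) : _ → K) y)) = _
      simp only [zero_add, Finset.sum_sub_distrib, Pi.sub_apply]
      exact congrArg₂ (fun a b : K => a - b) (hsingle _ q) (hsingle _ q)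
  have hS : ∀ x, e ((S * T)⁻¹ • x) - e ((S * T)⁻¹ • S • x) ∈ R := by
    intro x
    refine Submodule.mem_sup_left ⟨⟨(Pi.single x 1 - Pi.single (S • x) 1, 0), ?_⟩, ?_⟩
    · refine LinearMap.mem_ker.mpr (Prod.ext (funext fun y => ?_) (funext fun y => ?_))
      · show (Pi.single x (1 : K) : _ → K) y - (Pi.single (S • x) (1 : K) : _ → K) y + _ = 0
        have f1 : S • y = S • x ↔ y = x := smul_left_cancel_iff _
        have f2 : S • y = x ↔ y = S • x := by
          conv_lhs => rw [← smul_left_cancel_iff S, S_smul_S_smul hneg]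
        simp only [Pi.sub_apply, Pi.single_apply, f1, f2]
        ring
      · show (0 : K) + 0 + 0 = 0
        simp
    · funext q
      show ∑ y ∈ _, (((Pi.single x (1 : K) : _ → K) ((S * T) • y)
        - (Pi.single (S • x) (1 : K) : _ → K) ((S * T) • y)) + (0 : K)) = _
      have hshift : ∀ z y, (Pi.single z (1 : K) : (SL(2, ℤ) ⧸ Γ) → K) ((S * T) • y)
          = (Pi.single ((S * T)⁻¹ • z) (1 : K) : (SL(2, ℤ) ⧸ Γ) → K) y := fun z y => by
        simp only [Pi.single_apply, ← eq_inv_smul_iff]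
      simp only [add_zero, hshift, Finset.sum_sub_distrib, Pi.sub_apply]
      exact congrArg₂ (fun a b : K => a - b) (hsingle _ q) (hsingle _ q)
  have hmemU : ∀ x, e ((S * T) • x) ∈ R ↔ e x ∈ R := fun x =>
    ⟨fun h => by simpa using add_mem (hU x) h, fun h => by simpa using sub_mem h (hU x)⟩
  have hmemS : ∀ x, e (S • x) ∈ R ↔ e x ∈ R := by
    intro x
    have a1 := hmemU ((S * T)⁻¹ • x)
    have a2 := hmemU ((S * T)⁻¹ • S • x)
    rw [smul_inv_smul] at a1 a2
    rw [a1, a2]
    exact ⟨fun h => by simpa using add_mem (hS x) h, fun h => by simpa using sub_mem h (hS x)⟩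
  have hall : ∀ g : SL(2, ℤ), ∀ x, e (g • x) ∈ R ↔ e x ∈ R :=
    forall_of_S_of_ST _ hmemS hmemU (fun x => by rw [one_smul])
      (fun a a' ha ha' x => by rw [mul_smul, ha, ha'])
      (fun a ha x => by rw [← ha (a⁻¹ • x), smul_inv_smul])
  have htop : R = ⊤ := by
    rw [eq_top_iff, ← (Pi.basisFun K C).span_eq, Submodule.span_le]
    rintro _ ⟨q, rfl⟩
    induction q using Quotient.inductionOn' with
    | h x =>
      induction x using QuotientGroup.induction_on with
      | H g =>
        have h1 := (hall g ((1 : SL(2, ℤ)) : SL(2, ℤ) ⧸ Γ)).mpr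
          (Submodule.mem_sup_right (Submodule.mem_span_singleton_self _))
        change e ((g * 1 : SL(2, ℤ)) : SL(2, ℤ) ⧸ Γ) ∈ R at h1
        rw [mul_one] at h1
        simpa [he, Pi.basisFun_apply] using h1
  have hsup := Submodule.finrank_add_le_finrank_add_finrank (LinearMap.range ψ)
    (Submodule.span K {e ((1 : SL(2, ℤ)) : SL(2, ℤ) ⧸ Γ)})
  rw [← hR, htop, finrank_top, Module.finrank_fintype_fun_eq_card] at hsup
  have hspan : Module.finrank K
      (Submodule.span K {e ((1 : SL(2, ℤ)) : SL(2, ℤ) ⧸ Γ)}) ≤ 1 :=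
    (finrank_span_le_card _).trans (by simp)
  have hrn := LinearMap.finrank_range_add_finrank_ker ψ
  have hk : Module.finrank K (LinearMap.ker ψ)
      = Module.finrank K ↥(A ⊓ LinearMap.ker (cuspMap K Γ)) := by
    rw [hψ, LinearMap.ker_domRestrict, ← Submodule.finrank_map_subtype_eq,
      Submodule.map_comap_subtype]
  rw [Nat.card_eq_fintype_card]
  linarith

omit hneg in
/-- Finite dimensionality of the space of parabolic homomorphisms. -/
theorem finite_parabolicHoms (_hneg : -1 ∈ Γ) :
    Module.Finite K (ModularCurve.Period.parabolicHoms K Γ K) :=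
  haveI := Fintype.ofFinite (SL(2, ℤ) ⧸ Γ)
  Module.Finite.of_injective _ cocyclePair_injective

/-- The dimension bound on parabolic homomorphisms, from the bound on the elliptic kernel. -/
theorem finrank_parabolicHoms_le_of_ker
    (h1 : Module.finrank K (LinearMap.ker (ellipticMap K Γ))
      + Nat.card (orbitRel.Quotient (Subgroup.zpowers S) (SL(2, ℤ) ⧸ Γ))
      + Nat.card (orbitRel.Quotient (Subgroup.zpowers (S * T)) (SL(2, ℤ) ⧸ Γ))
      ≤ 2 * Nat.card (SL(2, ℤ) ⧸ Γ)) :
    6 * Module.finrank K (ModularCurve.Period.parabolicHoms K Γ K)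
      + 3 * Nat.card (fixedBy (SL(2, ℤ) ⧸ Γ) S)
      + 4 * Nat.card (fixedBy (SL(2, ℤ) ⧸ Γ) (S * T))
      + 6 * Nat.card (orbitRel.Quotient (Subgroup.zpowers T) (SL(2, ℤ) ⧸ Γ))
      ≤ Γ.index + 12 := by
  have := Fintype.ofFinite (SL(2, ℤ) ⧸ Γ)
  have := finite_parabolicHoms (K := K) hneg
  have hs : 2 * Nat.card (orbitRel.Quotient (Subgroup.zpowers S) (SL(2, ℤ) ⧸ Γ))
      = Nat.card (SL(2, ℤ) ⧸ Γ) + (2 - 1) * Nat.card (fixedBy (SL(2, ℤ) ⧸ Γ) S) :=
    prime_mul_card_orbits (α := SL(2, ℤ) ⧸ Γ) S Nat.prime_two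
      (fun x => by rw [S_sq, neg_one_smul_coset hneg])
  have hu : 3 * Nat.card (orbitRel.Quotient (Subgroup.zpowers (S * T)) (SL(2, ℤ) ⧸ Γ))
      = Nat.card (SL(2, ℤ) ⧸ Γ) + (3 - 1) * Nat.card (fixedBy (SL(2, ℤ) ⧸ Γ) (S * T)) :=
    prime_mul_card_orbits (α := SL(2, ℤ) ⧸ Γ) (S * T) Nat.prime_three
      (fun x => by rw [MFDim.ST_pow_three, neg_one_smul_coset hneg])
  have h2' := finrank_ker_inf (K := K) hneg
  have h4 := finrank_range_coboundary (K := K) (Γ := Γ)
  have h5 := Submodule.finrank_sup_add_finrank_inf_eq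
    (LinearMap.range (cocyclePair K Γ)) (LinearMap.range (coboundary K Γ))
  rw [disjoint_coboundary.eq_bot, finrank_bot, add_zero,
    LinearMap.finrank_range_of_inj cocyclePair_injective] at h5
  have h6 := Submodule.finrank_mono
    (sup_le (range_cocyclePair_le (K := K) hneg) (range_coboundary_le hneg))
  rw [Subgroup.index]
  omega

/-- The dimension of the space of parabolic homomorphisms is at most `2g`. -/
theorem finrank_parabolicHoms_le (h2 : (2 : K) ≠ 0) (h3 : (3 : K) ≠ 0) :
    6 * Module.finrank K (ModularCurve.Period.parabolicHoms K Γ K)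
      + 3 * Nat.card (fixedBy (SL(2, ℤ) ⧸ Γ) S)
      + 4 * Nat.card (fixedBy (SL(2, ℤ) ⧸ Γ) (S * T))
      + 6 * Nat.card (orbitRel.Quotient (Subgroup.zpowers T) (SL(2, ℤ) ⧸ Γ))
      ≤ Γ.index + 12 :=
  finrank_parabolicHoms_le_of_ker hneg (finrank_ker_ellipticMap h2 h3)

end Bound

end FLTAgent.Periods
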