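import Mathlib.LinearAlgebra.FiniteDimensional.Lemmas
import Fermat.Prelude.Def_ModularCurve_GenusNumerics
import Fermat.Agent.Periods.Injective
import Fermat.Agent.Periods.ParabolicBound
import Fermat.Agent.MFDim.Dimension

/-!
# Eichler–Shimura for weight two on `Γ₀(N)`: assembly

`periodHomPair_eichlerShimura` derives the theorem from the dimension formula for `S₂(Γ₀(N))`
using the standard counts of index, elliptic points and cusps of `Γ₀(N)`.
-/

set_option autoImplicit false

noncomputable section

open CongruenceSubgroup MulAction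
open scoped MatrixGroups
open ModularGroup (S T)

namespace FLTAgent.Periods

theorem finiteDimensional_cuspForm_two (N : ℕ) [NeZero N] :
    Module.Finite ℂ (CuspForm (Gamma0 N) 2) := by
  have := finite_parabolicHoms (K := ℂ) (Γ := Gamma0 N) MFDim.neg_one_mem_Gamma0
  have h : Function.Injective
      (((ModularCurve.periodHomPair N).codRestrict _
          (fun v => range_periodHomPair_le N ⟨v, rfl⟩)).comp
        (LinearMap.inl ℂ (CuspForm (Gamma0 N) 2) (CuspForm (Gamma0 N) 2))) := by
    intro f g hfg
    have := injective_periodHomPair N (congrArg Subtype.val hfg)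
    exact congrArg Prod.fst this
  exact Module.Finite.of_injective _ h

/-- The parabolic homomorphisms of `Γ₀(N)` have dimension at most twice the genus formula. -/
theorem finrank_parabolicHoms_le_genus (N : ℕ) [NeZero N] :
    (Module.finrank ℂ (ModularCurve.Period.parabolicHoms ℂ (Gamma0 N) ℂ) : ℚ)
      ≤ 2 * ModularCurve.genusFormula N := by
  have h := finrank_parabolicHoms_le (K := ℂ) (Γ := Gamma0 N) MFDim.neg_one_mem_Gamma0
    two_ne_zero three_ne_zero
  have hS : Nat.card (fixedBy (SL(2, ℤ) ⧸ Gamma0 N) S) = ModularCurve.nuTwo N :=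
    MFDim.card_fixed_S_eq_nuTwo N
  have hST : Nat.card (fixedBy (SL(2, ℤ) ⧸ Gamma0 N) (S * T)) = ModularCurve.nuThree N :=
    MFDim.card_fixed_ST_eq_nuThree N
  have hT : Nat.card (orbitRel.Quotient (Subgroup.zpowers T) (SL(2, ℤ) ⧸ Gamma0 N))
      = ModularCurve.cuspCount N := MFDim.orbCount_T_eq_cuspCount N
  rw [MFDim.index_Gamma0_eq_dedekindPsi, hS, hST, hT] at h
  have h' := (Nat.cast_le (α := ℚ)).mpr h
  push_cast at h'
  unfold ModularCurve.genusFormula
  linarith

/-- Eichler–Shimura in weight two. -/
theorem periodHomPair_eichlerShimura (N : ℕ) [NeZero N] :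
    Function.Injective (ModularCurve.periodHomPair N)
      ∧ LinearMap.range (ModularCurve.periodHomPair N)
          = ModularCurve.Period.parabolicHoms ℂ (Gamma0 N) ℂ := by
  have := finite_parabolicHoms (K := ℂ) (Γ := Gamma0 N) MFDim.neg_one_mem_Gamma0
  have := finiteDimensional_cuspForm_two N
  refine ⟨injective_periodHomPair N,
    Submodule.eq_of_le_of_finrank_le (range_periodHomPair_le N) ?_⟩
  rw [LinearMap.finrank_range_of_inj (injective_periodHomPair N), Module.finrank_prod]
  have h := finrank_parabolicHoms_le_genus N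
  rw [← MFDim.finrank_cuspForm_two] at h
  exact_mod_cast h.trans_eq (two_mul _)

end FLTAgent.Periods
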